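/-
T3 (D), part 2 (helper7): the abstract core of Eichler–Shimura on points.

* `t3d_divisor_core` : the combinatorial core (equality of two effective divisors from equalities
  of products of linear factors for indicator value functions);
* `t3d_ordGE_smul` : values of functions at places under a semilinear automorphism;
* `t3d_ordGE_frob` : the value at `Q` of `(Φ⁻¹ t)^ℓ · Φ t` in terms of the values of `t` at `Φ • Q`
  and `Φ⁻¹ • Q` (`Φ` a Frobenius-semilinear automorphism).
-/
import Mathlib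
import Fermat.Prelude.Def_AlgebraicCurve_BaseChangeGalois
import Fermat.Agent.Lib.T3.Red.Map

set_option autoImplicit false
set_option linter.unusedSectionVars false
set_option linter.style.haveILetI false
set_option linter.unusedVariables false

namespace Fermat.Agent.T3

open Polynomial in
open Classical in
/-- count of a root in a product of powers of linear factors -/
theorem t3d_count_roots_prod {k ι : Type*} [Field k] (s : Finset ι) (a : ι → k) (e : ι → ℕ)
    (b : k) :
    (∏ i ∈ s, (X - C (a i)) ^ e i : k[X]).roots.count b = ∑ i ∈ s, if a i = b then e i else 0 := by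
  have hne : (∏ i ∈ s, (X - C (a i)) ^ e i : k[X]) ≠ 0 :=
    Finset.prod_ne_zero_iff.mpr (fun i _ => pow_ne_zero _ (X_sub_C_ne_zero _))
  rw [Polynomial.roots_prod _ _ hne, Multiset.count_bind]
  rw [Finset.sum]
  congr 1
  refine Multiset.map_congr rfl (fun i _ => ?_)
  rw [Polynomial.roots_pow, Polynomial.roots_X_sub_C, Multiset.count_nsmul,
    Multiset.count_singleton]
  split_ifs with h1 h2 h2
  · simp
  · exact absurd h1.symm h2
  · exact absurd h2.symm h1
  · simp

open Polynomial in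
open Classical in
/-- **the combinatorial core of Eichler–Shimura on points**: if for every relevant place `Q₀` there
is an indicator value function for which the two products of linear factors agree at every `c`,
then the two divisors are equal. -/
theorem t3d_divisor_core {k Pl ι : Type*} [Field k] [Infinite k] (s : Finset ι) (Q : ι → Pl)
    (e : ι → ℕ) (Qp Qm : Pl) (ℓ : ℕ) (T : Set Pl) (hQ : ∀ i ∈ s, Q i ∈ T) (hp : Qp ∈ T)
    (hm : Qm ∈ T)
    (H : ∀ Q₀ ∈ T, ∃ val : Pl → k, (∀ Q' ∈ T, val Q' = if Q' = Q₀ then 0 else 1) ∧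
      ∀ c : k, ∏ i ∈ s, (c - val (Q i)) ^ e i = (c - val Qp) * (c - val Qm) ^ ℓ) :
    (∑ i ∈ s, Finsupp.single (Q i) (e i : ℤ) : Pl →₀ ℤ)
      = Finsupp.single Qp 1 + (ℓ : ℤ) • Finsupp.single Qm 1 := by
  ext Q₀
  rw [Finsupp.finsetSum_apply, Finsupp.add_apply, Finsupp.smul_apply]
  simp only [Finsupp.single_apply]
  by_cases hQ₀ : Q₀ ∈ T
  · obtain ⟨val, hval, hc⟩ := H Q₀ hQ₀
    have hpoly : (∏ i ∈ s, (X - C (val (Q i))) ^ e i : k[X])
        = ∏ i ∈ (Finset.univ : Finset (Fin 2)),
            (X - C (if i = 0 then val Qp else val Qm)) ^ (if i = 0 then 1 else ℓ) := by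
      apply Polynomial.funext
      intro c
      rw [Fin.prod_univ_two]
      simp only [eval_prod, eval_pow, eval_sub, eval_X, eval_C, eval_mul]
      simpa using hc c
    have h1 := t3d_count_roots_prod s (fun i => val (Q i)) e 0
    have h2 := t3d_count_roots_prod (Finset.univ : Finset (Fin 2))
      (fun i => if i = 0 then val Qp else val Qm) (fun i => if i = 0 then 1 else ℓ) 0
    rw [hpoly] at h1
    rw [h1, Fin.sum_univ_two] at h2
    have h10 : (1 : k) ≠ 0 := one_ne_zero
    have e1 : ∀ i ∈ s, (if val (Q i) = 0 then e i else 0) = if Q i = Q₀ then e i else 0 := by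
      intro i hi
      rw [hval _ (hQ i hi)]
      by_cases h : Q i = Q₀ <;> simp [h]
    rw [Finset.sum_congr rfl e1] at h2
    have e2 : (if val Qp = 0 then 1 else 0 : ℕ) = if Qp = Q₀ then 1 else 0 := by
      rw [hval _ hp]
      by_cases h : Qp = Q₀ <;> simp [h]
    have e3 : (if val Qm = 0 then ℓ else 0 : ℕ) = if Qm = Q₀ then ℓ else 0 := by
      rw [hval _ hm]
      by_cases h : Qm = Q₀ <;> simp [h]
    simp only [if_true, one_ne_zero, if_false] at h2
    rw [e2, e3] at h2
    have h3 : (∑ i ∈ s, if Q i = Q₀ then (e i : ℤ) else 0)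
        = ((∑ i ∈ s, if Q i = Q₀ then e i else 0 : ℕ) : ℤ) := by
      push_cast
      rfl
    rw [h3, h2]
    push_cast
    by_cases h4 : Qp = Q₀ <;> by_cases h5 : Qm = Q₀ <;> simp [h4, h5]
  · have e1 : ∀ i ∈ s, (if Q i = Q₀ then (e i : ℤ) else 0) = 0 := by
      intro i hi
      rw [if_neg]
      intro h
      exact hQ₀ (h ▸ hQ i hi)
    have hp' : ¬ Qp = Q₀ := fun h => hQ₀ (h ▸ hp)
    have hm' : ¬ Qm = Q₀ := fun h => hQ₀ (h ▸ hm)
    rw [Finset.sum_eq_zero e1, if_neg hp', if_neg hm']
    simp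

open AlgebraicCurve IntermediateField Fermat.Agent.Curve Fermat.Agent.Curve.PlaceAux
  Fermat.Agent.T1 IsDedekindDomain

variable {K F : Type*} [Field K] [Field F] [Algebra K F]

/-- values of functions at places under a semilinear automorphism:
`h(Q) = c ⟹ (g h)(g Q) = g c` -/
theorem t3d_ordGE_smul (g : SemilinearAut K F) (Q : Place K F) {h : F} {c : K}
    (hc : OrdGE Q (h - algebraMap K F c) 1) :
    OrdGE (g • Q) (g • h - algebraMap K F (SemilinearAut.baseAut g c)) 1 := by
  have e1 : g • (h - algebraMap K F c) = g • h - algebraMap K F (SemilinearAut.baseAut g c) := by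
    rw [smul_sub, SemilinearAut.smul_algebraMap]
  rw [← e1, ordGE_iff, SemilinearAut.ord_smul]
  rcases (ordGE_iff Q).mp hc with h0 | h0
  · left
    rw [h0, smul_zero]
  · right
    exact h0

/-- the value at `Q` of `(Φ⁻¹ t)^ℓ · Φ t`, for a Frobenius-semilinear `Φ` -/
theorem t3d_ordGE_frob [IsAlgClosed K] (Φ : SemilinearAut K F) (ℓ : ℕ)
    (hΦ : ∀ c : K, SemilinearAut.baseAut Φ c = c ^ ℓ) (Q : Place K F) {t : F} {vp vm : K}
    (hp : OrdGE (Φ • Q) (t - algebraMap K F vp) 1)
    (hm : OrdGE (Φ⁻¹ • Q) (t - algebraMap K F vm) 1) :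
    OrdGE Q ((Φ⁻¹ • t) ^ ℓ * (Φ • t) - algebraMap K F (vp * vm ^ ℓ)) 1 := by
  have h1 := t3d_ordGE_smul Φ⁻¹ (Φ • Q) hp
  rw [inv_smul_smul] at h1
  have h1' := t3a_ordGE_pow_of Q h1 ℓ
  have e1 : (SemilinearAut.baseAut Φ⁻¹ vp) ^ ℓ = vp := by
    rw [← hΦ, SemilinearAut.baseAut_inv, RingEquiv.apply_symm_apply]
  rw [e1] at h1'
  have h2 := t3d_ordGE_smul Φ (Φ⁻¹ • Q) hm
  rw [smul_inv_smul, hΦ] at h2
  exact t3a_ordGE_mul_of Q h1' h2

end Fermat.Agent.T3
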