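/-
T3 (D), part 3 (helper7): Eichler–Shimura on points, abstract form.

Setting: a good-reduction datum `hg : T3aGood d ℓ x`, a reduction map of places `r`, a
Frobenius-semilinear automorphism `Φ` of `F̄`, and an abstract "Hecke operator": a multiplicative map
`T : F → F` together with, for every place `P`, a finite family `(R W, e W)_{W ∈ fib P}` of places with
multiplicities (the points of `T_ℓ P`) such that
* (Kronecker) `T` preserves the Gauss ring and `res (T y) = (Φ⁻¹ ȳ)^ℓ · Φ ȳ`;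
* (value) `(T y)(P) = ∏_W y(R W)^{e W}`.
Then, on every chart, `∑_W e W · [r (R W)] = [Φ • r P] + ℓ [Φ⁻¹ • r P]`.
-/
import Mathlib
import Fermat.Agent.Lib.T3.ES.Core
import Fermat.Agent.Lib.T3.Red.Interp

set_option autoImplicit false
set_option linter.unusedSectionVars false
set_option linter.style.haveILetI false
set_option linter.unusedVariables false

namespace Fermat.Agent.T3

open AlgebraicCurve IntermediateField Fermat.Agent.Curve Fermat.Agent.Curve.PlaceAux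
  Fermat.Agent.T1 IsDedekindDomain

variable {K F k Fb : Type*} [Field K] [Field F] [Algebra K F] [Field k] [Field Fb] [Algebra k Fb]

/-- the coordinate-free properties of the abstract Hecke operator -/
structure T3dHecke (d : TbBase K F k Fb) (ℓ : ℕ) (Φ : SemilinearAut k Fb) {ι : Type*}
    (T : F → F) (fib : Place K F → Finset ι) (R : ι → Place K F) (e : ι → ℕ) : Prop where
  frob : ∀ c : k, SemilinearAut.baseAut Φ c = c ^ ℓ
  one : T 1 = 1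
  mul : ∀ a b : F, T (a * b) = T a * T b
  memOv : ∀ y ∈ d.Ov, T y ∈ d.Ov
  res : ∀ (y : F) (hy : y ∈ d.Ov),
    d.res ⟨T y, memOv y hy⟩ = (Φ⁻¹ • d.res ⟨y, hy⟩) ^ ℓ * (Φ • d.res ⟨y, hy⟩)
  e_pos : ∀ P, ∀ W ∈ fib P, 0 < e W
  value : ∀ (P : Place K F) (y : F) (c : ι → K),
    (∀ W ∈ fib P, OrdGE (R W) (y - algebraMap K F (c W)) 1) →
      OrdGE P (T y - algebraMap K F (∏ W ∈ fib P, c W ^ e W)) 1

variable [IsAlgClosed K] [IsAlgClosed k]
variable {d : TbBase K F k Fb} {ℓ : ℕ} {x : F} {r : Place K F → Place k Fb}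
  {Φ : SemilinearAut k Fb} {ι : Type*} {T : F → F} {fib : Place K F → Finset ι}
  {R : ι → Place K F} {e : ι → ℕ}

/-- the value of the constant `1` -/
theorem t3d_one_ne (Q : Place k Fb) (c : k) (h : OrdGE Q ((1 : Fb) - algebraMap k Fb c) 1) :
    c = 1 := by
  have h1 : (1 : Fb) - algebraMap k Fb c = algebraMap k Fb (1 - c) := by
    rw [map_sub, map_one]
  rw [h1] at h
  have := t3a_const_eq_zero_of_ordGE Q h
  exact (sub_eq_zero.mp this).symm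

/-- **evaluation of the Kronecker congruence at `P`**: if `y ∈ C` has the values `c W` at the points
`R W` of `T_ℓ P`, then `∏ c W ^ e W ∈ A` and it reduces to the value of `(Φ⁻¹ ȳ)^ℓ Φ ȳ` at `r P` -/
theorem t3d_chart_eval (hg : T3aGood d ℓ x) (hr : T3aIsRed d x r)
    (hT : T3dHecke d ℓ Φ T fib R e)
    (h1 : ∀ y ∈ t3aC d x, ∃ b ∈ t3aC d x, (∃ hb : b ∈ d.Ov, d.res ⟨b, hb⟩ = 1) ∧
      b * T y ∈ t3aC d x)
    {P : Place K F} (hP : T3aChartPlace d x P) {y : F} (hyC : y ∈ t3aC d x) (c : ι → K)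
    (hc : ∀ W ∈ fib P, OrdGE (R W) (y - algebraMap K F (c W)) 1) :
    ∃ π : ↥d.A, (π : K) = ∏ W ∈ fib P, c W ^ e W ∧
      OrdGE (r P) ((Φ⁻¹ • d.res ⟨y, hyC.1⟩) ^ ℓ * (Φ • d.res ⟨y, hyC.1⟩)
        - algebraMap k Fb (d.resA π)) 1 := by
  have hval := hT.value P y c hc
  obtain ⟨b, hbC, ⟨hbO, hbres⟩, habC⟩ := h1 y hyC
  obtain ⟨β, hβ⟩ := t3a_value_mem hg hP hbC
  obtain ⟨α, hα⟩ := t3a_value_mem hg hP habC
  have hmul := t3a_ordGE_mul_of P hβ hval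
  have hαβ : (α : K) = (β : K) * ∏ W ∈ fib P, c W ^ e W := const_unique_of_ordGE_one P hα hmul
  -- `β̄ = 1`
  have hβ1 : d.resA β = 1 := by
    have h2 := hr.eval1 P hP b hbC β hβ
    have h3 : d.res ⟨b, hbC.1⟩ = 1 := hbres
    rw [h3] at h2
    exact t3d_one_ne (r P) _ h2
  have hβu : IsUnit β := by
    rw [← IsLocalRing.notMem_maximalIdeal, ← d.resA_eq_zero_iff, hβ1]
    exact one_ne_zero
  obtain ⟨u, hu⟩ := hβu
  have hβ0 : (β : K) ≠ 0 := by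
    intro h0
    have : β = 0 := Subtype.ext h0
    rw [this, map_zero] at hβ1
    exact zero_ne_one hβ1
  have hπ : ((α * ((u⁻¹ : (↥d.A)ˣ) : ↥d.A) : ↥d.A) : K) = ∏ W ∈ fib P, c W ^ e W := by
    have h4 : ((β * ((u⁻¹ : (↥d.A)ˣ) : ↥d.A) : ↥d.A) : K) = 1 := by
      rw [← hu, Units.mul_inv]; rfl
    have h5 : ((β * ((u⁻¹ : (↥d.A)ˣ) : ↥d.A) : ↥d.A) : K)
        = (β : K) * (((u⁻¹ : (↥d.A)ˣ) : ↥d.A) : K) := rfl
    have h6 : ((α * ((u⁻¹ : (↥d.A)ˣ) : ↥d.A) : ↥d.A) : K)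
        = (α : K) * (((u⁻¹ : (↥d.A)ˣ) : ↥d.A) : K) := rfl
    rw [h6, hαβ, mul_comm ((β : K)) _, mul_assoc, ← h5, h4, mul_one]
  refine ⟨α * ((u⁻¹ : (↥d.A)ˣ) : ↥d.A), hπ, ?_⟩
  have hπres : d.resA (α * ((u⁻¹ : (↥d.A)ˣ) : ↥d.A)) = d.resA α := by
    have h7 : d.resA (β * ((u⁻¹ : (↥d.A)ˣ) : ↥d.A)) = 1 := by
      rw [← hu, Units.mul_inv, map_one]
    rw [map_mul, hβ1, one_mul] at h7
    rw [map_mul, h7, mul_one]
  rw [hπres]
  have h8 := hr.eval1 P hP (b * T y) habC α hα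
  have hTy : T y ∈ d.Ov := hT.memOv y hyC.1
  have h9 : d.res ⟨b * T y, habC.1⟩ = d.res ⟨b, hbC.1⟩ * d.res ⟨T y, hTy⟩ :=
    d.res_mul' hbC.1 hTy
  have h10 : d.res ⟨b, hbC.1⟩ = 1 := hbres
  rw [h9, h10, one_mul, hT.res y hyC.1] at h8
  exact h8

/-- **the points of `T_ℓ P` lie on the chart of `P`** -/
theorem t3d_chart_fib (hg : T3aGood d ℓ x) (hr : T3aIsRed d x r)
    (hT : T3dHecke d ℓ Φ T fib R e)
    (h1 : ∀ y ∈ t3aC d x, ∃ b ∈ t3aC d x, (∃ hb : b ∈ d.Ov, d.res ⟨b, hb⟩ = 1) ∧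
      b * T y ∈ t3aC d x)
    {P : Place K F} (hP : T3aChartPlace d x P)
    (h0 : ∀ W ∈ fib P, x ∈ (R W).toValuationSubring) :
    ∀ W ∈ fib P, T3aChartPlace d x (R W) := by
  classical
  have hex : ∀ W : ι, ∃ ξ : K, W ∈ fib P → OrdGE (R W) (x - algebraMap K F ξ) 1 := by
    intro W
    by_cases hW : W ∈ fib P
    · obtain ⟨ξ, hξ⟩ := exists_const_ordGE_one hg.gen (R W) (h0 W hW)
      exact ⟨ξ, fun _ => hξ⟩
    · exact ⟨0, fun h => absurd h hW⟩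
  choose ξ hξ using hex
  intro W₀ hW₀
  by_contra hnot
  have hξA : ξ W₀ ∉ d.A := fun hmem => hnot ⟨⟨ξ W₀, hmem⟩, hξ W₀ hW₀⟩
  obtain ⟨hai, hamax⟩ := t3a_inv_mem_maximalIdeal d hξA
  set a : ↥d.A := ⟨(ξ W₀)⁻¹, hai⟩ with ha
  have hξ0 : ξ W₀ ≠ 0 := fun h0' => hξA (h0' ▸ d.A.zero_mem)
  have haC : algebraMap K F (a : K) ∈ t3aC d x := t3a_algebraMap_mem_C d x a
  have hxC : x ∈ t3aC d x := t3a_x_mem_C hg
  have hyC : 1 - algebraMap K F (a : K) * x ∈ t3aC d x :=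
    (t3aC d x).sub_mem (t3aC d x).one_mem ((t3aC d x).mul_mem haC hxC)
  have hc : ∀ W ∈ fib P, OrdGE (R W)
      (1 - algebraMap K F (a : K) * x - algebraMap K F (1 - (a : K) * ξ W)) 1 := by
    intro W hW
    have h2 := ((hξ W hW).smul (R W) (a : K)).neg (R W)
    have h3 : -((a : K) • (x - algebraMap K F (ξ W)))
        = 1 - algebraMap K F (a : K) * x - algebraMap K F (1 - (a : K) * ξ W) := by
      rw [Algebra.smul_def, map_sub, map_one, map_mul]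
      ring
    rwa [h3] at h2
  obtain ⟨π, hπ, hπ2⟩ := t3d_chart_eval hg hr hT h1 hP hyC (fun W => 1 - (a : K) * ξ W) hc
  have hprod : ∏ W ∈ fib P, (1 - (a : K) * ξ W) ^ e W = 0 := by
    refine Finset.prod_eq_zero hW₀ ?_
    have h4 : (1 : K) - (a : K) * ξ W₀ = 0 := by
      show (1 : K) - (ξ W₀)⁻¹ * ξ W₀ = 0
      rw [inv_mul_cancel₀ hξ0, sub_self]
    rw [h4, zero_pow (hT.e_pos P W₀ hW₀).ne']
  have hπ0 : π = 0 := Subtype.ext (hπ.trans hprod)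
  -- `res y = 1`
  have hres : d.res ⟨1 - algebraMap K F (a : K) * x, hyC.1⟩ = 1 := by
    have h5 : (⟨1 - algebraMap K F (a : K) * x, hyC.1⟩ : ↥d.Ov)
        = 1 - ⟨algebraMap K F (a : K), haC.1⟩ * ⟨x, hxC.1⟩ := Subtype.ext rfl
    rw [h5, map_sub, map_one, map_mul]
    have h6 : d.res ⟨algebraMap K F (a : K), haC.1⟩ = algebraMap k Fb (d.resA a) :=
      d.res_algebraMap a
    rw [h6, (d.resA_eq_zero_iff a).mpr hamax, map_zero, zero_mul, sub_zero]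
  rw [hres, smul_one, smul_one, one_pow, one_mul, hπ0, map_zero] at hπ2
  have h7 := t3d_one_ne (r P) 0 hπ2
  exact zero_ne_one h7

/-- **Eichler–Shimura on points, on one chart** -/
theorem t3d_chart_main (hg : T3aGood d ℓ x) (hr : T3aIsRed d x r)
    (hT : T3dHecke d ℓ Φ T fib R e) (hfix : Φ • hg.xb = hg.xb)
    (h1 : ∀ y ∈ t3aC d x, ∃ b ∈ t3aC d x, (∃ hb : b ∈ d.Ov, d.res ⟨b, hb⟩ = 1) ∧
      b * T y ∈ t3aC d x)
    {P : Place K F} (hP : T3aChartPlace d x P)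
    (h0 : ∀ W ∈ fib P, x ∈ (R W).toValuationSubring) :
    (∑ W ∈ fib P, Finsupp.single (r (R W)) (e W : ℤ) : Place k Fb →₀ ℤ)
      = Finsupp.single (Φ • r P) 1 + (ℓ : ℤ) • Finsupp.single (Φ⁻¹ • r P) 1 := by
  classical
  haveI : Infinite k := IsAlgClosed.instInfinite (K := k)
  have hchart := t3d_chart_fib hg hr hT h1 hP h0
  have hfix' : Φ⁻¹ • hg.xb = hg.xb := by
    rw [inv_smul_eq_iff, hfix]
  have hP0 : 0 ≤ (r P).ord hg.xb := hr.ord_nonneg_of_chartPlace hg hP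
  have hp : 0 ≤ (Φ • r P).ord hg.xb := by
    rw [← hfix, SemilinearAut.ord_smul]
    exact hP0
  have hm : 0 ≤ (Φ⁻¹ • r P).ord hg.xb := by
    rw [← hfix', SemilinearAut.ord_smul]
    exact hP0
  refine t3d_divisor_core (k := k) (fib P) (fun W => r (R W)) e (Φ • r P) (Φ⁻¹ • r P) ℓ
    {Q | 0 ≤ Q.ord hg.xb} (fun W hW => hr.ord_nonneg_of_chartPlace hg (hchart W hW)) hp hm ?_
  intro Q₀ hQ₀
  set v : Place k Fb → k := fun Q' => if Q' = Q₀ then 0 else 1 with hv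
  set S : Finset (Place k Fb) :=
    insert (Φ • r P) (insert (Φ⁻¹ • r P) ((fib P).image (fun W => r (R W)))) with hS
  have hSord : ∀ Q ∈ S, 0 ≤ Q.ord hg.xb := by
    intro Q hQ
    rw [hS, Finset.mem_insert, Finset.mem_insert, Finset.mem_image] at hQ
    rcases hQ with rfl | rfl | ⟨W, hW, rfl⟩
    · exact hp
    · exact hm
    · exact hr.ord_nonneg_of_chartPlace hg (hchart W hW)
  obtain ⟨g, hgC, hgv⟩ := t3a_exists_interpolation hg S hSord v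
  refine ⟨v, fun Q' _ => rfl, fun cb => ?_⟩
  obtain ⟨c, rfl⟩ := d.resA_surj cb
  have hcC : algebraMap K F (c : K) ∈ t3aC d x := t3a_algebraMap_mem_C d x c
  have hyC : algebraMap K F (c : K) - g ∈ t3aC d x := (t3aC d x).sub_mem hcC hgC
  -- the values of `g` at the `R W`
  have hex : ∀ W : ι, ∃ γ : ↥d.A, W ∈ fib P → OrdGE (R W) (g - algebraMap K F (γ : K)) 1 := by
    intro W
    by_cases hW : W ∈ fib P
    · obtain ⟨γ, hγ⟩ := t3a_value_mem hg (hchart W hW) hgC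
      exact ⟨γ, fun _ => hγ⟩
    · exact ⟨0, fun h => absurd h hW⟩
  choose γ hγ using hex
  have hγv : ∀ W ∈ fib P, d.resA (γ W) = v (r (R W)) := by
    intro W hW
    have h2 := hr.eval1 (R W) (hchart W hW) g hgC (γ W) (hγ W hW)
    have hmem : r (R W) ∈ S := by
      rw [hS, Finset.mem_insert, Finset.mem_insert, Finset.mem_image]
      exact Or.inr (Or.inr ⟨W, hW, rfl⟩)
    exact const_unique_of_ordGE_one (r (R W)) h2 (hgv _ hmem)
  have hc : ∀ W ∈ fib P, OrdGE (R W)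
      (algebraMap K F (c : K) - g - algebraMap K F ((c : K) - (γ W : K))) 1 := by
    intro W hW
    have h2 := (hγ W hW).neg (R W)
    have h3 : -(g - algebraMap K F ((γ W : ↥d.A) : K))
        = algebraMap K F (c : K) - g - algebraMap K F ((c : K) - (γ W : K)) := by
      rw [map_sub]; ring
    rwa [h3] at h2
  obtain ⟨π, hπ, hπ2⟩ := t3d_chart_eval hg hr hT h1 hP hyC (fun W => (c : K) - (γ W : K)) hc
  -- `π = ∏ (c - γ W)^{e W}` in `A`
  have hπA : π = ∏ W ∈ fib P, (c - γ W) ^ e W := by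
    apply Subtype.ext
    rw [hπ]
    push_cast
    rfl
  have hπres : d.resA π = ∏ W ∈ fib P, (d.resA c - v (r (R W))) ^ e W := by
    rw [hπA, map_prod]
    refine Finset.prod_congr rfl (fun W hW => ?_)
    rw [map_pow, map_sub, hγv W hW]
  -- the reduction of `y`
  have hres : d.res ⟨algebraMap K F (c : K) - g, hyC.1⟩
      = algebraMap k Fb (d.resA c) - d.res ⟨g, hgC.1⟩ := by
    have h5 : (⟨algebraMap K F (c : K) - g, hyC.1⟩ : ↥d.Ov)
        = ⟨algebraMap K F (c : K), hcC.1⟩ - ⟨g, hgC.1⟩ := Subtype.ext rfl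
    rw [h5, map_sub]
    have h6 : d.res ⟨algebraMap K F (c : K), hcC.1⟩ = algebraMap k Fb (d.resA c) :=
      d.res_algebraMap c
    rw [h6]
  have hvalue : ∀ Q ∈ S, OrdGE Q (algebraMap k Fb (d.resA c) - d.res ⟨g, hgC.1⟩
      - algebraMap k Fb (d.resA c - v Q)) 1 := by
    intro Q hQ
    have h2 := (hgv Q hQ).neg Q
    have h3 : -(d.res ⟨g, hgC.1⟩ - algebraMap k Fb (v Q))
        = algebraMap k Fb (d.resA c) - d.res ⟨g, hgC.1⟩ - algebraMap k Fb (d.resA c - v Q) := by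
      rw [map_sub]; ring
    rwa [h3] at h2
  have hpS : Φ • r P ∈ S := by
    rw [hS]; exact Finset.mem_insert_self _ _
  have hmS : Φ⁻¹ • r P ∈ S := by
    rw [hS]; exact Finset.mem_insert_of_mem (Finset.mem_insert_self _ _)
  have hfrob := t3d_ordGE_frob Φ ℓ hT.frob (r P) (hvalue _ hpS) (hvalue _ hmS)
  rw [hres] at hπ2
  have hfinal := const_unique_of_ordGE_one (r P) hπ2 hfrob
  rw [hπres] at hfinal
  exact hfinal

/-- **Eichler–Shimura on points, chart `x`** -/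
theorem t3d_chart1 (hg : T3aGood d ℓ x) (hr : T3aIsRed d x r)
    (hT : T3dHecke d ℓ Φ T fib R e) (hfix : Φ • hg.xb = hg.xb)
    (hint : ∀ y, IsIntegral ↥(Algebra.adjoin K {x}) y → IsIntegral ↥(Algebra.adjoin K {x}) (T y))
    (hnoncusp : ∀ P, 0 ≤ P.ord x → ∀ W ∈ fib P, 0 ≤ (R W).ord x)
    {P : Place K F} (hP : T3aChartPlace d x P) :
    (∑ W ∈ fib P, Finsupp.single (r (R W)) (e W : ℤ) : Place k Fb →₀ ℤ)
      = Finsupp.single (Φ • r P) 1 + (ℓ : ℤ) • Finsupp.single (Φ⁻¹ • r P) 1 := by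
  refine t3d_chart_main hg hr hT hfix ?_ hP ?_
  · intro y hy
    refine ⟨1, (t3aC d x).one_mem, ⟨d.Ov.one_mem, map_one d.res⟩, ?_⟩
    rw [one_mul]
    exact ⟨hT.memOv y hy.1, hint y hy.2⟩
  · intro W hW
    obtain ⟨a, ha⟩ := id hP
    have hx : x ∈ P.toValuationSubring := CurveP.RRAux.mem_of_ordGE_sub_const P ha
    exact mem_of_ord_nonneg _ (hnoncusp P (ord_nonneg_of_mem P hx) W hW)

/-- `T` preserves regularity at the poles of `x` -/
theorem t3d_regcusp (hg : T3aGood d ℓ x) (hT : T3dHecke d ℓ Φ T fib R e)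
    (hcusp : ∀ P, P.ord x < 0 → ∀ W ∈ fib P, (R W).ord x < 0)
    {y : F} (hy : ∀ v : Place K F, v.ord x < 0 → 0 ≤ v.ord y) (P : Place K F)
    (hP : P.ord x < 0) : 0 ≤ P.ord (T y) := by
  classical
  have hex : ∀ W : ι, ∃ ξ : K, W ∈ fib P → OrdGE (R W) (y - algebraMap K F ξ) 1 := by
    intro W
    by_cases hW : W ∈ fib P
    · obtain ⟨ξ, hξ⟩ := exists_const_ordGE_one hg.gen (R W)
        (mem_of_ord_nonneg _ (hy (R W) (hcusp P hP W hW)))
      exact ⟨ξ, fun _ => hξ⟩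
    · exact ⟨0, fun h => absurd h hW⟩
  choose ξ hξ using hex
  have h1 := hT.value P y ξ hξ
  exact ord_nonneg_of_mem P (CurveP.RRAux.mem_of_ordGE_sub_const P h1)

theorem t3d_T_pow (hT : T3dHecke d ℓ Φ T fib R e) (z : F) (m : ℕ) : T (z ^ m) = T z ^ m := by
  induction m with
  | zero => rw [pow_zero, pow_zero, hT.one]
  | succ m ih => rw [pow_succ, pow_succ, hT.mul, ih]

/-- `x^{-(ℓ+1)} T x ∈ K[x⁻¹]` -/
theorem t3d_b0_mem_adjoin (hx0 : x ≠ 0)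
    (hpoly : ∃ p : Polynomial K, p.natDegree ≤ ℓ + 1 ∧ T x = Polynomial.aeval x p) :
    x⁻¹ ^ (ℓ + 1) * T x ∈ Algebra.adjoin K {x⁻¹} := by
  obtain ⟨p, hp, hTx⟩ := hpoly
  rw [hTx, Polynomial.aeval_eq_sum_range' (Nat.lt_succ_of_le hp), Finset.mul_sum]
  refine Subalgebra.sum_mem _ (fun i hi => ?_)
  rw [Finset.mem_range] at hi
  have hi' : i ≤ ℓ + 1 := Nat.lt_succ_iff.mp hi
  have h1 : x⁻¹ ^ (ℓ + 1) * p.coeff i • x ^ i = p.coeff i • x⁻¹ ^ (ℓ + 1 - i) := by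
    rw [mul_smul_comm]
    congr 1
    have h2 : x⁻¹ ^ (ℓ + 1) = x⁻¹ ^ (ℓ + 1 - i) * x⁻¹ ^ i := by
      rw [← pow_add, Nat.sub_add_cancel hi']
    rw [h2, mul_assoc, ← mul_pow, inv_mul_cancel₀ hx0, one_pow, mul_one]
  rw [h1]
  exact Subalgebra.smul_mem _ (Subalgebra.pow_mem _ (Algebra.self_mem_adjoin_singleton K x⁻¹) _) _

/-- **Eichler–Shimura on points, chart `x⁻¹`** -/
theorem t3d_chart2 (hg : T3aGood d ℓ x) (hr : T3aIsRed d x r)
    (hT : T3dHecke d ℓ Φ T fib R e) (hfix : Φ • hg.xb = hg.xb)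
    (hint : ∀ y, IsIntegral ↥(Algebra.adjoin K {x}) y → IsIntegral ↥(Algebra.adjoin K {x}) (T y))
    (hnoncusp : ∀ P, 0 ≤ P.ord x → ∀ W ∈ fib P, 0 ≤ (R W).ord x)
    (hcusp : ∀ P, P.ord x < 0 → ∀ W ∈ fib P, (R W).ord x < 0)
    (hpoly : ∃ p : Polynomial K, p.natDegree ≤ ℓ + 1 ∧ T x = Polynomial.aeval x p)
    {P : Place K F} (hP : T3aChartPlace d x⁻¹ P) :
    (∑ W ∈ fib P, Finsupp.single (r (R W)) (e W : ℤ) : Place k Fb →₀ ℤ)
      = Finsupp.single (Φ • r P) 1 + (ℓ : ℤ) • Finsupp.single (Φ⁻¹ • r P) 1 := by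
  classical
  haveI := hg.sep
  haveI := hg.sepi
  have hx0 : x ≠ 0 := hg.x_ne_zero
  have hxinv : IsFunctionFieldGen K F x⁻¹ := CurveP.isFunctionFieldGen_inv hg.gen
  have hxb : hg.inv.xb = hg.xb⁻¹ := hg.res_inv
  have hfixi : Φ • hg.inv.xb = hg.inv.xb := by
    rw [hxb, smul_inv'', hfix]
  -- the function `b₀ = x^{-(ℓ+1)} T x`
  have hTxO : T x ∈ d.Ov := hT.memOv x hg.hxO
  have hb0O : x⁻¹ ^ (ℓ + 1) * T x ∈ d.Ov := d.Ov.mul_mem (d.Ov.pow_mem hg.hxiO _) hTxO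
  have hb0int : IsIntegral ↥(Algebra.adjoin K {x⁻¹}) (x⁻¹ ^ (ℓ + 1) * T x) :=
    isIntegral_algebraMap
      (x := (⟨x⁻¹ ^ (ℓ + 1) * T x, t3d_b0_mem_adjoin hx0 hpoly⟩ : ↥(Algebra.adjoin K {x⁻¹})))
  have hb0C : x⁻¹ ^ (ℓ + 1) * T x ∈ t3aC d x⁻¹ := ⟨hb0O, hb0int⟩
  have hb0res : d.res ⟨x⁻¹ ^ (ℓ + 1) * T x, hb0O⟩ = 1 := by
    have h2 : d.res ⟨x⁻¹ ^ (ℓ + 1) * T x, hb0O⟩
        = d.res ⟨x⁻¹, hg.hxiO⟩ ^ (ℓ + 1) * d.res ⟨T x, hTxO⟩ := by
      rw [← d.res_pow' hg.hxiO, ← d.res_mul' (d.Ov.pow_mem hg.hxiO _) hTxO]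
    have h3 : d.res ⟨x, hg.hxO⟩ = hg.xb := rfl
    rw [h2, hg.res_inv, hT.res x hg.hxO, h3, hfix, inv_smul_eq_iff.mpr hfix.symm, ← pow_succ,
      ← mul_pow, inv_mul_cancel₀ hg.xb_ne_zero, one_pow]
  -- regularity on `C₂`
  have hregC2 : ∀ y ∈ t3aC d x⁻¹, ∀ v : Place K F, v.ord x < 0 → 0 ≤ v.ord y := by
    intro y hy v hv
    refine ta_ord_nonneg_of_isIntegral hy.2 v ?_
    rw [v.ord_inv]
    omega
  refine t3d_chart_main hg.inv hr.inv hT hfixi ?_ hP ?_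
  · intro y hyC
    obtain ⟨m, hm⟩ := t3a_exists_pow_mul_mem_C hg hyC
    have hbO : (x⁻¹ ^ (ℓ + 1) * T x) ^ m ∈ d.Ov := d.Ov.pow_mem hb0O m
    have hbC : (x⁻¹ ^ (ℓ + 1) * T x) ^ m ∈ t3aC d x⁻¹ := (t3aC d x⁻¹).pow_mem hb0C m
    have hbres : d.res ⟨(x⁻¹ ^ (ℓ + 1) * T x) ^ m, hbO⟩ = 1 := by
      rw [d.res_pow' hb0O, hb0res, one_pow]
    have hTyO : T y ∈ d.Ov := hT.memOv y hyC.1
    refine ⟨_, hbC, ⟨hbO, hbres⟩, d.Ov.mul_mem hbO hTyO, ?_⟩
    refine ta_isIntegral_of_regular hxinv _ (fun v hv => ?_)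
    rw [v.ord_inv] at hv
    rcases lt_or_eq_of_le (show v.ord x ≤ 0 by omega) with hlt | heq
    · -- a pole of `x`
      have h2 : (x⁻¹ ^ (ℓ + 1) * T x) ^ m ∈ v.toValuationSubring :=
        mem_of_ord_nonneg v (hregC2 _ hbC v hlt)
      have h3 : T y ∈ v.toValuationSubring :=
        mem_of_ord_nonneg v (t3d_regcusp hg hT hcusp (hregC2 y hyC) v hlt)
      exact ord_nonneg_of_mem v (v.toValuationSubring.mul_mem _ _ h2 h3)
    · -- `x` a unit at `v`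
      have h2 : (x⁻¹ ^ (ℓ + 1) * T x) ^ m * T y = (x⁻¹ ^ (ℓ + 1)) ^ m * T (x ^ m * y) := by
        rw [hT.mul, t3d_T_pow hT, mul_pow, mul_assoc]
      rw [h2]
      have h3 : x⁻¹ ∈ v.toValuationSubring := by
        apply mem_of_ord_nonneg
        rw [v.ord_inv, heq, neg_zero]
      have h4 : T (x ^ m * y) ∈ v.toValuationSubring :=
        mem_of_ord_nonneg v (ta_ord_nonneg_of_isIntegral (hint _ hm.2) v (le_of_eq heq.symm))
      exact ord_nonneg_of_mem v (v.toValuationSubring.mul_mem _ _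
        (v.toValuationSubring.pow_mem (v.toValuationSubring.pow_mem h3 _) _) h4)
  · intro W hW
    rcases lt_or_ge (P.ord x) 0 with hlt | hge
    · apply mem_of_ord_nonneg
      rw [(R W).ord_inv]
      have := hcusp P hlt W hW
      omega
    · -- `P` is not a pole of `x`: the values of `x` on `T_ℓ P` are nonzero
      have hex : ∀ W : ι, ∃ ξ : K, W ∈ fib P → OrdGE (R W) (x - algebraMap K F ξ) 1 := by
        intro W
        by_cases hW : W ∈ fib P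
        · obtain ⟨ξ, hξ⟩ := exists_const_ordGE_one hg.gen (R W)
            (mem_of_ord_nonneg _ (hnoncusp P hge W hW))
          exact ⟨ξ, fun _ => hξ⟩
        · exact ⟨0, fun h => absurd h hW⟩
      choose ξ hξ using hex
      have hval := hT.value P x ξ hξ
      obtain ⟨a, ha⟩ := id hP
      have hb0val := t3a_ordGE_mul_of P (t3a_ordGE_pow_of P ha (ℓ + 1)) hval
      obtain ⟨β, hβ⟩ := t3a_value_mem hg.inv hP hb0C
      have hβ1 : d.resA β = 1 := by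
        have h2 := hr.inv.eval1 P hP _ hb0C β hβ
        have h3 : d.res ⟨x⁻¹ ^ (ℓ + 1) * T x, hb0C.1⟩ = 1 := hb0res
        rw [h3] at h2
        exact t3d_one_ne (r P) _ h2
      have hβeq : (β : K) = (a : K) ^ (ℓ + 1) * ∏ W ∈ fib P, ξ W ^ e W :=
        const_unique_of_ordGE_one P hβ hb0val
      have hξ0 : ξ W ≠ 0 := by
        intro h0
        have hprod : ∏ W ∈ fib P, ξ W ^ e W = 0 := by
          refine Finset.prod_eq_zero hW ?_
          rw [h0, zero_pow (hT.e_pos P W hW).ne']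
        rw [hprod, mul_zero] at hβeq
        have : β = 0 := Subtype.ext hβeq
        rw [this, map_zero] at hβ1
        exact zero_ne_one hβ1
      exact CurveP.RRAux.mem_of_ordGE_sub_const (R W)
        (t3a_ordGE_inv_of hg.gen (R W) hξ0 (hξ W hW))

/-- **Eichler–Shimura on points** (abstract form): for every place `P`,
`∑_{W} e W · [r (R W)] = [Φ • r P] + ℓ [Φ⁻¹ • r P]` -/
theorem t3d_abs_main (hg : T3aGood d ℓ x) (hr : T3aIsRed d x r)
    (hT : T3dHecke d ℓ Φ T fib R e) (hfix : Φ • hg.xb = hg.xb)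
    (hint : ∀ y, IsIntegral ↥(Algebra.adjoin K {x}) y → IsIntegral ↥(Algebra.adjoin K {x}) (T y))
    (hnoncusp : ∀ P, 0 ≤ P.ord x → ∀ W ∈ fib P, 0 ≤ (R W).ord x)
    (hcusp : ∀ P, P.ord x < 0 → ∀ W ∈ fib P, (R W).ord x < 0)
    (hpoly : ∃ p : Polynomial K, p.natDegree ≤ ℓ + 1 ∧ T x = Polynomial.aeval x p)
    (P : Place K F) :
    (∑ W ∈ fib P, Finsupp.single (r (R W)) (e W : ℤ) : Place k Fb →₀ ℤ)
      = Finsupp.single (Φ • r P) 1 + (ℓ : ℤ) • Finsupp.single (Φ⁻¹ • r P) 1 := by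
  rcases t3a_chart_cases hg P with hP | ⟨a, -, ha⟩
  · exact t3d_chart1 hg hr hT hfix hint hnoncusp hP
  · exact t3d_chart2 hg hr hT hfix hint hnoncusp hcusp hpoly ⟨a, ha⟩

end Fermat.Agent.T3
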