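/-
T3 (D), part 1 (helper7): the Kronecker congruence on the Gauss ring of `F_N` over `(ℚ̄, A)`:
for `y ∈ 𝒪_v` (i.e. `TbGauss`), `tkrHecke N ℓ y ∈ 𝒪_v` and
`res (T y) = (res y)(q^ℓ) · Frob(res y)`  (`ℓ` = residue characteristic, `ℓ ∤ N`).
-/
import Mathlib
import Fermat.Agent.Lib.T1.Kron.Rep
import Fermat.Agent.Lib.T1.Kron.Exist
import Fermat.Agent.Lib.T1.Inst.BaseQ

set_option autoImplicit false
set_option linter.unusedSectionVars false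
set_option linter.style.haveILetI false
set_option linter.unusedVariables false

namespace Fermat.Agent.T3

open ModularCurve HahnSeries Fermat.Agent.T1 Fermat.Agent.TW

local notation "Qb" => AlgebraicClosure ℚ

variable (𝔓 : FFPlace) (N : ℕ) [NeZero N]

/-- the residue field has characteristic `𝔓.p` (local instance) -/
theorem t3d_charP : CharP (IsLocalRing.ResidueField ↥𝔓.P) 𝔓.p := tkr_charP_residue 𝔓.hp 𝔓.hP

/-- `𝔓.p` is prime (local instance) -/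
theorem t3d_fact : Fact 𝔓.p.Prime := ⟨𝔓.hp⟩

attribute [local instance] t3d_charP t3d_fact

/-- **Kronecker congruence on the Gauss ring** -/
theorem t3d_gauss_hecke (hN : ¬ 𝔓.p ∣ N) {y : ↥(modularFunctionFieldBar N)}
    (hy : TbGauss 𝔓.P (IsLocalRing.residue ↥𝔓.P) (y : LaurentSeries Qb)) :
    TbGauss 𝔓.P (IsLocalRing.residue ↥𝔓.P)
        ((tkrHecke N 𝔓.p y : ↥(modularFunctionFieldBar N)) : LaurentSeries Qb) ∧
      tbRhoFun 𝔓.P (IsLocalRing.residue ↥𝔓.P)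
        ((tkrHecke N 𝔓.p y : ↥(modularFunctionFieldBar N)) : LaurentSeries Qb)
      = qExpand (IsLocalRing.ResidueField ↥𝔓.P) 𝔓.p
          (tbRhoFun 𝔓.P (IsLocalRing.residue ↥𝔓.P) (y : LaurentSeries Qb))
        * coeffMap (frobenius (IsLocalRing.ResidueField ↥𝔓.P) 𝔓.p)
          (tbRhoFun 𝔓.P (IsLocalRing.residue ↥𝔓.P) (y : LaurentSeries Qb)) := by
  obtain ⟨a, b, hb, hab⟩ := hy
  obtain ⟨ζ, hζ, -⟩ := tkr_exists_zeta 𝔓.p
  have hζu : ζ ^ 𝔓.p = 1 := by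
    apply Units.ext
    rw [Units.val_pow_eq_pow_val, Units.val_one]
    exact hζ.pow_eq_one
  obtain ⟨ζA, hζA⟩ := tkr_exists_unit_of_pow_eq_one (A := 𝔓.P) 𝔓.hp.ne_zero hζu
  have hζ' : IsPrimitiveRoot
      ((Units.map (𝔓.P.subtype : ↥𝔓.P →* Qb) ζA : Qbˣ) : Qb) 𝔓.p := by
    rw [hζA]; exact hζ
  have hζA' : IsPrimitiveRoot (ζA : ↥𝔓.P) 𝔓.p := by
    refine IsPrimitiveRoot.of_map_of_injective (f := 𝔓.P.subtype) ?_ 𝔓.P.subtype_injective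
    exact hζ'
  have hrep : TkrRep 𝔓.P (tkrTilde 𝔓.p hζ' (y : LaurentSeries Qb)) (tkrTilde 𝔓.p hζA' a)
      (tkrTilde 𝔓.p hζA' b) := TkrRep.tilde (A := 𝔓.P) hab 𝔓.p hζA' hζ'
  have hT : tkrTilde 𝔓.p hζ' (y : LaurentSeries Qb)
      = ((tkrHecke N 𝔓.p y : ↥(modularFunctionFieldBar N)) : LaurentSeries Qb) :=
    tkrTilde_eq_tkrHecke 𝔓.hp hN hζ' y
  rw [hT] at hrep
  have hredb : coeffMap (IsLocalRing.residue ↥𝔓.P) (tkrTilde 𝔓.p hζA' b) ≠ 0 := by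
    rw [tkr_red_tilde 𝔓.p hζA' b]
    have h1 : coeffMap (IsLocalRing.residue ↥𝔓.P) b ≠ 0 := hb
    exact mul_ne_zero ((map_ne_zero _).mpr h1) ((map_ne_zero _).mpr h1)
  refine ⟨⟨tkrTilde 𝔓.p hζA' a, tkrTilde 𝔓.p hζA' b, hredb, hrep⟩, ?_⟩
  rw [tbRhoFun_eq 𝔓.P _ hredb hrep, tbRhoFun_eq 𝔓.P _ hb hab]
  show coeffMap (IsLocalRing.residue ↥𝔓.P) (tkrTilde 𝔓.p hζA' a)
      / coeffMap (IsLocalRing.residue ↥𝔓.P) (tkrTilde 𝔓.p hζA' b) = _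
  rw [tkr_red_tilde 𝔓.p hζA' a, tkr_red_tilde 𝔓.p hζA' b]
  show _ = qExpand _ 𝔓.p (coeffMap (IsLocalRing.residue ↥𝔓.P) a
      / coeffMap (IsLocalRing.residue ↥𝔓.P) b)
    * coeffMap (frobenius _ 𝔓.p) (coeffMap (IsLocalRing.residue ↥𝔓.P) a
      / coeffMap (IsLocalRing.residue ↥𝔓.P) b)
  rw [map_div₀, map_div₀, mul_div_mul_comm]

end Fermat.Agent.T3
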