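/-
T3 (D), part 4 (helper7): the modular instance of the abstract Hecke operator of `ES/Abs.lean`:
`T = tkrHecke M p`, `T_p P = ∑_{W ∘ β = P} e_β(W) · (W ∘ α)`, `Φ = t3bPhi 𝔓 M`.
-/
import Mathlib
import Fermat.Agent.Lib.T3.ES.Kron
import Fermat.Agent.Lib.T3.ES.Abs
import Fermat.Agent.Lib.T3.Hecke.Norm
import Fermat.Agent.Lib.T3.Gal.Mod
import Fermat.Agent.Lib.T3.Red.Modular

set_option autoImplicit false
set_option linter.unusedSectionVars false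
set_option linter.style.haveILetI false
set_option linter.unusedVariables false
set_option synthInstance.maxHeartbeats 400000

namespace Fermat.Agent.T3

open ModularCurve AlgebraicCurve IntermediateField HahnSeries Module
open Fermat.Agent.T1 Fermat.Agent.T2 Fermat.Agent.S24Lib Fermat.Agent.Curve
  Fermat.Agent.Curve.PlaceAux Fermat.Agent.TW

local notation "Qb" => AlgebraicClosure ℚ

section Value

variable (N ℓ : ℕ) [NeZero N] [hℓ : Fact ℓ.Prime] (h : ¬ ℓ ∣ N)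

/-- `f(W ∘ φ) = c ⟹ (φ f)(W) = c` -/
theorem t3d_ordGE_along {K F F' : Type*} [Field K] [Field F] [Field F'] [Algebra K F]
    [Algebra K F'] (φ : F →ₐ[K] F') (hφ : φ.toRingHom.IsIntegral) (W : Place K F') {f : F}
    {c : K} (hc : OrdGE (W.restrictAlong φ hφ) (f - algebraMap K F c) 1) :
    OrdGE W (φ f - algebraMap K F' c) 1 := by
  have e1 : φ f - algebraMap K F' c = φ (f - algebraMap K F c) := by
    rw [map_sub, AlgHom.commutes]
  rw [e1, ordGE_iff]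
  rcases (ordGE_iff _).mp hc with h0 | h0
  · left
    rw [h0, map_zero]
  · right
    rw [Place.ord_restrictAlong φ hφ]
    have hpos : (0 : ℤ) < (W.ramificationIndexAlong φ : ℤ) := by
      letI := algebraAlong φ
      haveI := isScalarTower_along φ
      haveI := isIntegral_along φ hφ
      exact_mod_cast W.ramificationIndex_pos (F := F)
    nlinarith

include h in
/-- **the value of `tkrHecke N ℓ y` at `P`** is the product of the values of `y` on `T_ℓ P` -/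
theorem t3d_hecke_value (P : Place Qb ↥(modularFunctionFieldBar N))
    (y : ↥(modularFunctionFieldBar N))
    (c : Place Qb ↥(modularFunctionFieldBar (N * ℓ)) → Qb)
    (hc : ∀ W ∈ Place.fiberAlong (heckeBetaBar Qb N ℓ) (t3h_betaIntegral N ℓ) P,
      OrdGE (W.restrictAlong (heckeAlphaBar Qb N ℓ) (t3h_alphaIntegral N ℓ))
        (y - algebraMap Qb _ (c W)) 1) :
    OrdGE P ((tkrHecke N ℓ y : ↥(modularFunctionFieldBar N))
      - algebraMap Qb _ (∏ W ∈ Place.fiberAlong (heckeBetaBar Qb N ℓ) (t3h_betaIntegral N ℓ) P,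
          c W ^ W.ramificationIndexAlong (heckeBetaBar Qb N ℓ))) 1 := by
  rw [← t3k_normAlong_beta_alpha N ℓ h y]
  exact t3h_norm_value_beta N ℓ P _ c
    (fun W hW => t3d_ordGE_along _ (t3h_alphaIntegral N ℓ) W (hc W hW))

end Value

attribute [local instance] t3d_charP t3d_fact

variable (𝔓 : FFPlace) (M : ℕ) [NeZero M] (hM : ¬ 𝔓.p ∣ M)
  (hOK : ∀ H : Subgroup 𝔓.I, H.FiniteIndex → TbLevelOK 𝔓 M H)

include hM in
/-- `tkrHecke` preserves the Gauss ring -/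
theorem t3d_hecke_mem_Ov {y : ↥(modularFunctionFieldBar M)} (hy : y ∈ (tbBaseQ hOK).Ov) :
    (tkrHecke M 𝔓.p y : ↥(modularFunctionFieldBar M)) ∈ (tbBaseQ hOK).Ov :=
  (t3d_gauss_hecke 𝔓 M hM hy).1

/-- **Kronecker congruence**: `res (T y) = (Φ⁻¹ ȳ)^p · Φ ȳ` -/
theorem t3d_res_hecke {y : ↥(modularFunctionFieldBar M)} (hy : y ∈ (tbBaseQ hOK).Ov) :
    (tbBaseQ hOK).res ⟨tkrHecke M 𝔓.p y, t3d_hecke_mem_Ov 𝔓 M hM hOK hy⟩
      = ((t3bPhi 𝔓 M)⁻¹ • (tbBaseQ hOK).res ⟨y, hy⟩) ^ 𝔓.p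
          * (t3bPhi 𝔓 M • (tbBaseQ hOK).res ⟨y, hy⟩) := by
  apply Subtype.ext
  have h1 := (t3d_gauss_hecke 𝔓 M hM hy).2
  set t : ↥(tbBarF 𝔓 M) := (tbBaseQ hOK).res ⟨y, hy⟩ with ht
  have ht' : ((t : ↥(tbBarF 𝔓 M)) : LaurentSeries (IsLocalRing.ResidueField ↥𝔓.P))
      = tbRhoFun 𝔓.P (IsLocalRing.residue ↥𝔓.P) (y : LaurentSeries Qb) := rfl
  have hL : (((tbBaseQ hOK).res ⟨tkrHecke M 𝔓.p y, t3d_hecke_mem_Ov 𝔓 M hM hOK hy⟩ :
      ↥(tbBarF 𝔓 M)) : LaurentSeries (IsLocalRing.ResidueField ↥𝔓.P))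
      = tbRhoFun 𝔓.P (IsLocalRing.residue ↥𝔓.P)
          ((tkrHecke M 𝔓.p y : ↥(modularFunctionFieldBar M)) : LaurentSeries Qb) := rfl
  rw [hL, h1, ← ht']
  have hR : (((((t3bPhi 𝔓 M)⁻¹ • t) ^ 𝔓.p * (t3bPhi 𝔓 M • t) : ↥(tbBarF 𝔓 M)) :
      LaurentSeries (IsLocalRing.ResidueField ↥𝔓.P)))
      = ((((t3bPhi 𝔓 M)⁻¹ • t : ↥(tbBarF 𝔓 M)) :
          LaurentSeries (IsLocalRing.ResidueField ↥𝔓.P))) ^ 𝔓.p
        * ((t3bPhi 𝔓 M • t : ↥(tbBarF 𝔓 M)) :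
          LaurentSeries (IsLocalRing.ResidueField ↥𝔓.P)) := rfl
  have e1 : ((((t3bPhi 𝔓 M)⁻¹ • t : ↥(tbBarF 𝔓 M)) :
      LaurentSeries (IsLocalRing.ResidueField ↥𝔓.P))) ^ 𝔓.p
      = qExpand (IsLocalRing.ResidueField ↥𝔓.P) 𝔓.p
          (t : LaurentSeries (IsLocalRing.ResidueField ↥𝔓.P)) := by
    rw [tkr_pow_char, ← coe_t3bPhi_smul 𝔓 M, smul_inv_smul]
  rw [hR, e1, coe_t3bPhi_smul 𝔓 M t]

/-- the coefficientwise Frobenius fixes `j̄` -/
theorem t3d_phi_barJ : t3bPhi 𝔓 M • tbBarJ 𝔓 M = tbBarJ 𝔓 M := by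
  apply Subtype.ext
  rw [coe_t3bPhi_smul 𝔓 M]
  exact coeffMap_jqModC _

include hM in
set_option maxHeartbeats 1600000 in
/-- **the modular instance of the abstract Hecke operator** -/
theorem t3d_hecke_modular : T3dHecke (tbBaseQ hOK) 𝔓.p (t3bPhi 𝔓 M)
    (fun y => (tkrHecke M 𝔓.p y : ↥(modularFunctionFieldBar M)))
    (fun P => Place.fiberAlong (heckeBetaBar Qb M 𝔓.p) (t3h_betaIntegral M 𝔓.p) P)
    (fun W => W.restrictAlong (heckeAlphaBar Qb M 𝔓.p) (t3h_alphaIntegral M 𝔓.p))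
    (fun W => W.ramificationIndexAlong (heckeBetaBar Qb M 𝔓.p)) where
  frob := baseAut_t3bPhi 𝔓 M
  one := map_one _
  mul := fun a b => map_mul _ a b
  memOv := fun y hy => t3d_hecke_mem_Ov 𝔓 M hM hOK hy
  res := fun y hy => t3d_res_hecke 𝔓 M hM hOK hy
  e_pos := fun P W hW => by
    letI := algebraAlong (heckeBetaBar Qb M 𝔓.p)
    haveI := isScalarTower_along (heckeBetaBar Qb M 𝔓.p)
    haveI := isIntegral_along (heckeBetaBar Qb M 𝔓.p) (t3h_betaIntegral M 𝔓.p)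
    exact W.ramificationIndex_pos (F := ↥(modularFunctionFieldBar M))
  value := fun P y c hc => t3d_hecke_value M 𝔓.p hM P y c hc

include hM in
set_option maxHeartbeats 1600000 in
/-- **Eichler–Shimura on points at a good level**, modulo the level-one polynomial `T j = p(j)` -/
theorem t3d_ES_of_poly (hg : T3aGood (tbBaseQ hOK) 𝔓.p (tbJ M))
    {r : Place Qb ↥(modularFunctionFieldBar M) →
      Place (IsLocalRing.ResidueField ↥𝔓.P) ↥(tbBarF 𝔓 M)}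
    (hr : T3aIsRed (tbBaseQ hOK) (tbJ M) r)
    (hpoly : ∃ p : Polynomial Qb, p.natDegree ≤ 𝔓.p + 1 ∧
      (tkrHecke M 𝔓.p (tbJ M) : ↥(modularFunctionFieldBar M)) = Polynomial.aeval (tbJ M) p)
    (P : Place Qb ↥(modularFunctionFieldBar M)) :
    Finsupp.mapDomain r (heckeDivBar (t3h_alphaIntegral M 𝔓.p) (t3h_betaIntegral M 𝔓.p)
        (Finsupp.single P 1))
      = Finsupp.single (t3bPhi 𝔓 M • r P) 1
        + (𝔓.p : ℤ) • Finsupp.single ((t3bPhi 𝔓 M)⁻¹ • r P) 1 := by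
  have hfix : t3bPhi 𝔓 M • hg.xb = hg.xb := by
    have h1 : hg.xb = tbBarJ 𝔓 M := tbResQ_tbJ hOK
    rw [h1]
    exact t3d_phi_barJ 𝔓 M
  have hmain := t3d_abs_main hg hr (t3d_hecke_modular 𝔓 M hM hOK) hfix
    (fun y hy => t3k_isIntegral_hecke M 𝔓.p hM hy)
    (fun P hP W hW => t3k_ord_alpha_nonneg M 𝔓.p hM W (by
      rw [Place.mem_fiberAlong.mp hW]; exact hP))
    (fun P hP W hW => t3k_ord_alpha_neg M 𝔓.p W (by
      rw [Place.mem_fiberAlong.mp hW]; exact hP))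
    hpoly P
  rw [← hmain]
  show Finsupp.mapDomain r (Divisor.correspondence (heckeBetaBar Qb M 𝔓.p)
    (heckeAlphaBar Qb M 𝔓.p) (t3h_betaIntegral M 𝔓.p) (t3h_alphaIntegral M 𝔓.p)
    (Finsupp.single P 1)) = _
  rw [t3h_correspondence_single (t3h_gen (M * 𝔓.p)) _ _ (t3h_betaIntegral M 𝔓.p)
    (t3h_alphaIntegral M 𝔓.p) P 1, Finsupp.mapDomain_finset_sum]
  refine Finset.sum_congr rfl (fun W _ => ?_)
  rw [Finsupp.mapDomain_single, one_mul]

end Fermat.Agent.T3
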