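/-
T3 (D), part 5 (helper7): package D in the shape `T3dES` consumed by the glue (`Asm/Glue.lean`),
modulo the level-one polynomial `T_ℓ j = p(j)`, `deg p ≤ ℓ + 1` (`T3dPoly`, proved in
`ES/Level1.lean`).
-/
import Mathlib
import Fermat.Agent.Lib.T3.ES.Mod
import Fermat.Agent.Lib.T3.Asm.Glue

set_option autoImplicit false
set_option linter.unusedSectionVars false
set_option linter.style.haveILetI false
set_option linter.unusedVariables false
set_option synthInstance.maxHeartbeats 400000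

namespace Fermat.Agent.T3

open ModularCurve AlgebraicCurve IntermediateField HahnSeries Module
open Fermat.Agent.T1 Fermat.Agent.T2 Fermat.Agent.S24Lib Fermat.Agent.Curve
  Fermat.Agent.Curve.PlaceAux Fermat.Agent.TW

local notation "Qb" => AlgebraicClosure ℚ

/-- the level-one polynomial: `T_ℓ j ∈ ℚ̄[j]` of degree at most `ℓ + 1` -/
def T3dPoly : Prop :=
  ∀ (M ℓ : ℕ) [NeZero M] [Fact ℓ.Prime], ¬ ℓ ∣ M →
    ∃ p : Polynomial Qb, p.natDegree ≤ ℓ + 1 ∧
      (tkrHecke M ℓ (tbJ M) : ↥(modularFunctionFieldBar M)) = Polynomial.aeval (tbJ M) p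

set_option maxHeartbeats 1600000 in
/-- **package D** from the level-one polynomial -/
theorem t3d_ES_of_level1 (hpoly : T3dPoly) : T3dES := by
  intro 𝔓 M _ h49 hM P
  haveI : Fact 𝔓.p.Prime := ⟨𝔓.hp⟩
  exact t3d_ES_of_poly 𝔓 M hM (t3aOK 𝔓 M hM) (t3a_good_modular 𝔓 M h49 hM)
    (t3z_isRed 𝔓 M h49 hM) (hpoly M 𝔓.p hM) P

end Fermat.Agent.T3
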