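/-
T3 (D), delegated leaf (helper6): **`T_ℓ j` is a polynomial in `j` of degree `≤ ℓ + 1`**.

`tkrHecke M ℓ (tbJ M)` has the same `q`-expansion at every level `M` (prime to `ℓ`); at level `1`
the function field is `ℚ̄(j)`, `T_ℓ j` is integral over `ℚ̄[j]` (helper7's `t3k_isIntegral_hecke`),
hence a polynomial in `j`; its degree is read off from the order of the `q`-expansion, `-(ℓ + 1)`.
-/
import Mathlib
import Fermat.Agent.Lib.T3.Hecke.Norm
import Fermat.Agent.Lib.Igusa.TwistOrbit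
import Fermat.Agent.Lib.Eis.Geom.CuspPlaces

set_option autoImplicit false
set_option linter.unusedSectionVars false
set_option linter.style.haveILetI false
set_option linter.unusedVariables false

namespace Fermat.Agent.T3

open ModularCurve AlgebraicCurve IntermediateField HahnSeries Module Polynomial
open Fermat.Agent.T1 Fermat.Agent.T2 Fermat.Agent.S24Lib Fermat.Agent.Curve

local notation "Qb" => AlgebraicClosure ℚ

open scoped IntermediateField.algebraAdjoinAdjoin

/-- the twist `q ↦ c q` preserves the order -/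
theorem t3d1_order_tkrTw {R : Type*} [CommRing R] (c : Rˣ) {f : LaurentSeries R} (hf : f ≠ 0) :
    (tkrTw c f).order = f.order := by
  apply Fermat.Agent.Eis.eh_order_eq_of_coeff
  · rw [tkrTw_coeff]
    intro h0
    have h1 : f.coeff f.order = 0 := by
      have := congrArg (fun t => (((c ^ f.order)⁻¹ : Rˣ) : R) * t) h0
      simpa [← mul_assoc, ← Units.val_mul] using this
    exact hf (HahnSeries.coeff_order_eq_zero.mp h1)
  · intro m hm
    rw [tkrTw_coeff, HahnSeries.coeff_eq_zero_of_lt_order hm, mul_zero]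

/-- an element of `k(J)` integral over `k[J]` (`J` transcendental) is a polynomial in `J` -/
theorem t3d1_exists_poly_of_isIntegral {k Ω : Type*} [Field k] [Field Ω] [Algebra k Ω] {J z : Ω}
    (htr : Transcendental k J) (hmem : z ∈ IntermediateField.adjoin k {J})
    (hint : IsIntegral (Algebra.adjoin k {J}) z) : ∃ p : k[X], aeval J p = z := by
  let e : k[X] ≃ₐ[k] Algebra.adjoin k {J} := Polynomial.algEquivOfTranscendental k J htr
  have : IsIntegrallyClosed (Algebra.adjoin k {J}) :=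
    IsIntegrallyClosed.of_equiv e.toRingEquiv
  have hintL : IsIntegral (Algebra.adjoin k {J})
      (⟨z, hmem⟩ : IntermediateField.adjoin k {J}) := by
    have hinj : Function.Injective (algebraMap (IntermediateField.adjoin k {J}) Ω) :=
      (algebraMap (IntermediateField.adjoin k {J}) Ω).injective
    exact (isIntegral_algHom_iff (IsScalarTower.toAlgHom (Algebra.adjoin k {J})
      (IntermediateField.adjoin k {J}) Ω) hinj).mp hint
  obtain ⟨w, hw⟩ := IsIntegrallyClosed.algebraMap_eq_of_integral hintL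
  refine ⟨e.symm w, ?_⟩
  have h1 : ((e (e.symm w) : Algebra.adjoin k {J}) : Ω) = aeval J (e.symm w) := by
    simp only [e, Polynomial.algEquivOfTranscendental_apply]
    exact Polynomial.aeval_subalgebra_coe _ _ _
  rw [← h1, AlgEquiv.apply_symm_apply]
  have := congrArg (fun t : IntermediateField.adjoin k {J} => (t : Ω)) hw
  exact this

variable (M ℓ : ℕ) [NeZero M] [hℓ : Fact ℓ.Prime]

/-- the coercion to Laurent series commutes with `aeval` -/
theorem t3d1_coe_aeval (p : Qb[X]) :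
    ((aeval (tbJ M) p : ↥(modularFunctionFieldBar M)) : LaurentSeries Qb)
      = aeval (jqModC Qb) p :=
  (Polynomial.aeval_algHom_apply (modularFunctionFieldBar M).val (tbJ M) p).symm

/-- **level independence** of the `q`-expansion of `T_ℓ j` -/
theorem t3d1_coe_hecke_tbJ (h : ¬ ℓ ∣ M) :
    ((tkrHecke M ℓ (tbJ M) : ↥(modularFunctionFieldBar M)) : LaurentSeries Qb)
      = ((tkrHecke 1 ℓ (tbJ 1) : ↥(modularFunctionFieldBar 1)) : LaurentSeries Qb) := by
  haveI : NeZero ℓ := ⟨hℓ.out.ne_zero⟩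
  obtain ⟨ζ, hζ, -⟩ := tkr_exists_zeta ℓ
  have h1 : ¬ ℓ ∣ 1 := fun h' => hℓ.out.one_lt.ne' (Nat.dvd_one.mp h')
  apply qExpand_injective (R := Qb) ℓ
  rw [tkrHecke_spec hℓ.out h hζ (tbJ M), tkrHecke_spec hℓ.out h1 hζ (tbJ 1), coe_tbJ, coe_tbJ]

/-- the order of the `q`-expansion of `T_ℓ j` is `-(ℓ + 1)` -/
theorem t3d1_order_hecke_tbJ (h : ¬ ℓ ∣ M) :
    ((tkrHecke M ℓ (tbJ M) : ↥(modularFunctionFieldBar M)) : LaurentSeries Qb).order
      = -((ℓ : ℤ) + 1) := by
  haveI : NeZero ℓ := ⟨hℓ.out.ne_zero⟩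
  haveI : NeZero (ℓ * ℓ) := ⟨mul_ne_zero hℓ.out.ne_zero hℓ.out.ne_zero⟩
  obtain ⟨ζ, hζ, -⟩ := tkr_exists_zeta ℓ
  have hj0 : jqModC Qb ≠ 0 := jqModC_ne_zero_of_nontrivial Qb
  have hspec := tkrHecke_spec hℓ.out h hζ (tbJ M)
  rw [coe_tbJ] at hspec
  set Z : LaurentSeries Qb := ((tkrHecke M ℓ (tbJ M) : ↥(modularFunctionFieldBar M)) :
    LaurentSeries Qb) with hZ
  have hprod : ∀ s : Finset (Fin ℓ), (∏ b ∈ s, tkrTw (ζ ^ (b : ℕ)) (jqModC Qb)) ≠ 0 ∧
      (∏ b ∈ s, tkrTw (ζ ^ (b : ℕ)) (jqModC Qb)).order = -(s.card : ℤ) := by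
    intro s
    induction s using Finset.induction_on with
    | empty => simp
    | insert a s ha ih =>
      have h2 : tkrTw (ζ ^ (a : ℕ)) (jqModC Qb) ≠ 0 := by
        intro h0
        have := t3d1_order_tkrTw (ζ ^ (a : ℕ)) hj0
        rw [h0, HahnSeries.order_zero, Fermat.Agent.Eis.eh_order_jqModC] at this
        omega
      rw [Finset.prod_insert ha, Finset.card_insert_of_notMem ha]
      refine ⟨mul_ne_zero h2 ih.1, ?_⟩
      rw [HahnSeries.order_mul h2 ih.1, ih.2, t3d1_order_tkrTw _ hj0,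
        Fermat.Agent.Eis.eh_order_jqModC]
      push_cast
      ring
  have hq0 : qExpand Qb (ℓ * ℓ) (jqModC Qb) ≠ 0 := by
    intro h0
    have := Fermat.Agent.Eis.eh_order_qExpand (ℓ * ℓ) hj0
    rw [h0, HahnSeries.order_zero, Fermat.Agent.Eis.eh_order_jqModC] at this
    have hpos : (0 : ℤ) < ((ℓ * ℓ : ℕ) : ℤ) := by
      exact_mod_cast Nat.pos_of_ne_zero (NeZero.ne (ℓ * ℓ))
    omega
  have hR : (qExpand Qb (ℓ * ℓ) (jqModC Qb)
      * ∏ b : Fin ℓ, tkrTw (ζ ^ (b : ℕ)) (jqModC Qb)).order = -((ℓ * ℓ : ℕ) : ℤ) - ℓ := by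
    rw [HahnSeries.order_mul hq0 (hprod Finset.univ).1, (hprod Finset.univ).2,
      Fermat.Agent.Eis.eh_order_qExpand (ℓ * ℓ) hj0, Fermat.Agent.Eis.eh_order_jqModC,
      Finset.card_univ, Fintype.card_fin]
    ring
  have hZ0 : Z ≠ 0 := by
    intro h0
    rw [h0, map_zero] at hspec
    exact mul_ne_zero hq0 (hprod Finset.univ).1 hspec.symm
  have hL := Fermat.Agent.Eis.eh_order_qExpand ℓ hZ0
  rw [hspec, hR] at hL
  have hℓpos : (0 : ℤ) < ℓ := by exact_mod_cast hℓ.out.pos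
  push_cast at hL
  have : (ℓ : ℤ) * Z.order = (ℓ : ℤ) * (-((ℓ : ℤ) + 1)) := by rw [← hL]; ring
  exact mul_left_cancel₀ hℓpos.ne' this

/-- the order of a polynomial in `j` -/
theorem t3d1_order_aeval_jqModC {p : Qb[X]} (hp : p ≠ 0) :
    (aeval (jqModC Qb) p : LaurentSeries Qb).order = -(p.natDegree : ℤ) := by
  have hj0 : jqModC Qb ≠ 0 := jqModC_ne_zero_of_nontrivial Qb
  have hvk : ∀ c : Qb, c ≠ 0 →
      HahnSeries.addVal ℤ Qb (algebraMap Qb (LaurentSeries Qb) c) = 0 := by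
    intro c hc
    have h1 : algebraMap Qb (LaurentSeries Qb) c ≠ 0 := by
      rw [Ne, map_eq_zero_iff _ (algebraMap Qb (LaurentSeries Qb)).injective]
      exact hc
    rw [HahnSeries.addVal_apply_of_ne h1]
    rw [algebraMap_laurentSeries_eq_single, HahnSeries.order_single hc]
    rfl
  have hJ : HahnSeries.addVal ℤ Qb (jqModC Qb) = ((-1 : ℤ) : WithTop ℤ) := by
    rw [HahnSeries.addVal_apply_of_ne hj0, Fermat.Agent.Eis.eh_order_jqModC]
  have hval := Fermat.Agent.Igusa.ti_addVal_aeval (k := Qb) (HahnSeries.addVal ℤ Qb) hvk hJ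
    (by norm_num) p.natDegree p hp rfl
  have h0 : (aeval (jqModC Qb) p : LaurentSeries Qb) ≠ 0 := by
    intro h0
    rw [h0, AddValuation.map_zero] at hval
    exact WithTop.top_ne_coe hval
  rw [HahnSeries.addVal_apply_of_ne h0] at hval
  have := WithTop.coe_injective hval
  rw [this]
  ring

/-- **`T_ℓ j` is a polynomial in `j` of degree `≤ ℓ + 1`** -/
theorem t3d1_hecke_j_poly (h : ¬ ℓ ∣ M) :
    ∃ p : Polynomial Qb, p.natDegree ≤ ℓ + 1 ∧
      tkrHecke M ℓ (tbJ M) = Polynomial.aeval (tbJ M) p := by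
  have h1 : ¬ ℓ ∣ 1 := fun h' => hℓ.out.one_lt.ne' (Nat.dvd_one.mp h')
  -- level one: the function field is `ℚ̄(j)`
  have htop : Qb⟮tbJ 1⟯ = ⊤ := by
    have hfr : Module.finrank ↥Qb⟮tbJ 1⟯ ↥(modularFunctionFieldBar 1) = 1 := by
      have := finrank_jBar 1
      rw [dedekindPsi_one] at this
      exact this
    have hgen : IsFunctionFieldGen Qb ↥(modularFunctionFieldBar 1) (tbJ 1) :=
      isFunctionFieldGen_jBar 1
    haveI : FiniteDimensional ↥Qb⟮tbJ 1⟯ ↥(modularFunctionFieldBar 1) := hgen.finite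
    exact IntermediateField.finrank_eq_one_iff_eq_top.mp hfr
  have htr : Transcendental Qb (tbJ 1) := (isFunctionFieldGen_jBar 1).1
  have hint : IsIntegral ↥(Algebra.adjoin Qb {tbJ 1}) (tkrHecke 1 ℓ (tbJ 1)) :=
    t3k_isIntegral_hecke 1 ℓ h1 (isIntegral_algebraMap
      (x := (⟨tbJ 1, Algebra.self_mem_adjoin_singleton Qb _⟩ : ↥(Algebra.adjoin Qb {tbJ 1}))))
  have hmem : tkrHecke 1 ℓ (tbJ 1) ∈ Qb⟮tbJ 1⟯ := by
    rw [htop]; exact IntermediateField.mem_top
  obtain ⟨p, hp⟩ := t3d1_exists_poly_of_isIntegral htr hmem hint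
  have hcoe : ((tkrHecke M ℓ (tbJ M) : ↥(modularFunctionFieldBar M)) : LaurentSeries Qb)
      = aeval (jqModC Qb) p := by
    rw [t3d1_coe_hecke_tbJ M ℓ h, ← hp, t3d1_coe_aeval]
  refine ⟨p, ?_, ?_⟩
  · by_cases hp0 : p = 0
    · rw [hp0, natDegree_zero]; omega
    · have h2 := t3d1_order_hecke_tbJ M ℓ h
      rw [hcoe, t3d1_order_aeval_jqModC hp0] at h2
      omega
  · apply Subtype.ext
    rw [hcoe, t3d1_coe_aeval]

end Fermat.Agent.T3
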